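/-
S33 / INST-GOOD (architect helper113), block Adjoin (helper234): `L'(S) ∩ L((q)) = L(S)`, algebraic
series are constant, Frobenius stability of `k(S)`.
-/
import Fermat.Agent.S18.Descent.Indep
import Fermat.Agent.S18.Base.Coord

set_option autoImplicit false
set_option linter.style.haveILetI false

noncomputable section

namespace Fermat.Agent.S33.Inst.Good

open Polynomial IntermediateField ModularCurve Fermat.Agent.S18

section Adjoin

/-- an `L`-linear form maps `L'[φ S]` into `L[S]` -/
theorem adjoin_coeffLin_mem {L L' : Type*} [Field L] [Field L'] [Algebra L L']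
    (S : Set (LaurentSeries L)) {P : LaurentSeries L'}
    (hP : P ∈ Algebra.adjoin L' (coeffMap (algebraMap L L') '' S)) (lam : L' →ₗ[L] L) :
    Descent.coeffLin lam P ∈ Algebra.adjoin L S := by
  have hP' : P ∈ Subalgebra.toSubmodule
      (Algebra.adjoin L' (coeffMap (algebraMap L L') '' S)) := hP
  rw [Algebra.adjoin_eq_span] at hP'
  clear hP
  induction hP' using Submodule.span_induction generalizing lam with
  | mem x hx =>
    have hx' : x ∈ (Submonoid.closure S).map
        ((coeffMap (algebraMap L L') : LaurentSeries L →+* LaurentSeries L') :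
          LaurentSeries L →* LaurentSeries L') := by
      rw [MonoidHom.map_mclosure]
      exact hx
    obtain ⟨m, hm, rfl⟩ := hx'
    have hm' : m ∈ Algebra.adjoin L S := by
      have hle : Submonoid.closure S ≤ (Algebra.adjoin L S).toSubsemiring.toSubmonoid :=
        Submonoid.closure_le.2 Algebra.subset_adjoin
      exact hle hm
    have e : Descent.coeffLin lam (coeffMap (algebraMap L L') m) =
        m * algebraMap L (LaurentSeries L) (lam 1) := by
      rw [← Descent.coeffLin_algebraMap, ← Descent.coeffLin_mul, map_one, mul_one]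
    change Descent.coeffLin lam (coeffMap (algebraMap L L') m) ∈ _
    rw [e]
    exact mul_mem hm' (Subalgebra.algebraMap_mem _ _)
  | zero =>
    rw [Descent.coeffLin_zero]
    exact zero_mem _
  | add x y _ _ hx hy =>
    rw [Descent.coeffLin_add]
    exact add_mem (hx lam) (hy lam)
  | smul a x _ hx =>
    have e : Descent.coeffLin lam (algebraMap L' (LaurentSeries L') a * x) =
        Descent.coeffLin (lam.comp (LinearMap.mulLeft L a)) x := by
      ext k
      rw [algebraMap_laurentSeries_eq_single, HahnSeries.single_zero_mul_eq_smul]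
      simp
    rw [Algebra.smul_def, e]
    exact hx _

/-- DESC, general form: `L'(S) ∩ L((q)) = L(S)`. -/
theorem mem_adjoin_of_coeffMap_mem {L L' : Type*} [Field L] [Field L'] (φ : L →+* L')
    (S : Set (LaurentSeries L)) (y : LaurentSeries L)
    (hy : coeffMap φ y ∈ IntermediateField.adjoin L' (coeffMap φ '' S)) :
    y ∈ IntermediateField.adjoin L S := by
  letI := φ.toAlgebra
  change coeffMap (algebraMap L L') y ∈
    IntermediateField.adjoin L' (coeffMap (algebraMap L L') '' S) at hy
  obtain ⟨P, hP, Q, hQ, e⟩ := IntermediateField.mem_adjoin_iff_div.1 hy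
  by_cases hQ0 : Q = 0
  · rw [hQ0, div_zero] at e
    have : y = 0 := (coeffMap (algebraMap L L')).injective (by rw [e, map_zero])
    rw [this]
    exact zero_mem _
  · obtain ⟨n, hn⟩ : ∃ n, Q.coeff n ≠ 0 := by
      by_contra hcon
      push Not at hcon
      exact hQ0 (HahnSeries.ext (funext hcon))
    obtain ⟨lam, hlam⟩ : ∃ lam : L' →ₗ[L] L, lam (Q.coeff n) ≠ 0 := by
      by_contra hcon
      push Not at hcon
      exact hn ((Module.forall_dual_apply_eq_zero_iff L (Q.coeff n)).1 hcon)
    have hlQ : Descent.coeffLin lam Q ≠ 0 := by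
      intro h0
      apply hlam
      rw [← Descent.coeffLin_coeff, h0]
      rfl
    have e' : y * Descent.coeffLin lam Q = Descent.coeffLin lam P := by
      rw [← Descent.coeffLin_mul, e, div_mul_cancel₀ _ hQ0]
    have e'' : y = Descent.coeffLin lam P / Descent.coeffLin lam Q := by
      rw [← e', mul_div_cancel_right₀ _ hlQ]
    rw [e'']
    exact div_mem (IntermediateField.algebra_adjoin_le_adjoin L S (adjoin_coeffLin_mem S hP lam))
      (IntermediateField.algebra_adjoin_le_adjoin L S (adjoin_coeffLin_mem S hQ lam))

/-- an element of `k((q))` which is algebraic over `k` is constant -/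
theorem exists_eq_C_of_isAlgebraic {k : Type*} [Field k] (f : LaurentSeries k)
    (hf : IsAlgebraic k f) : ∃ c : k, f = HahnSeries.C c := by
  refine ⟨f.coeff 0, ?_⟩
  have hC : (HahnSeries.C (f.coeff 0) : LaurentSeries k) =
      algebraMap k (LaurentSeries k) (f.coeff 0) := by
    rw [algebraMap_laurentSeries_eq_single]
    rfl
  have hg : IsAlgebraic k (f - HahnSeries.C (f.coeff 0)) := by
    rw [hC]
    exact hf.sub (isAlgebraic_algebraMap _)
  by_contra hne
  have hg0 : f - HahnSeries.C (f.coeff 0) ≠ 0 := sub_ne_zero.2 hne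
  have hord : (f - HahnSeries.C (f.coeff 0)).order = 0 := by
    by_contra h
    exact Coord.transcendental_of_order_ne_zero h hg
  have h1 := (HahnSeries.coeff_order_eq_zero (x := f - HahnSeries.C (f.coeff 0))).not.mpr hg0
  rw [hord] at h1
  apply h1
  simp

variable {k : Type*} [Field k] (p : ℕ) [Fact p.Prime] [CharP k p]

/-- a field generated by `𝔽_p`-rational series is stable under the coefficientwise Frobenius -/
theorem frob_mem_adjoin (S : Set (LaurentSeries k))
    (hS : ∀ s ∈ S, coeffMap (frobenius k p) s = s) {g : LaurentSeries k}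
    (hg : g ∈ IntermediateField.adjoin k S) :
    coeffMap (frobenius k p) g ∈ IntermediateField.adjoin k S := by
  induction hg using IntermediateField.adjoin_induction with
  | mem x hx =>
    rw [hS x hx]
    exact IntermediateField.subset_adjoin _ _ hx
  | algebraMap c =>
    rw [coeffMap_algebraMap]
    exact IntermediateField.algebraMap_mem _ _
  | add x y _ _ hx hy =>
    rw [map_add]
    exact add_mem hx hy
  | inv x _ hx =>
    rw [map_inv₀]
    exact inv_mem hx
  | mul x y _ _ hx hy =>
    rw [map_mul]
    exact mul_mem hx hy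

/-- ... and under its inverse if `k` is perfect -/
theorem exists_frob_eq_of_mem_adjoin (hk : Function.Surjective (frobenius k p))
    (S : Set (LaurentSeries k)) (hS : ∀ s ∈ S, coeffMap (frobenius k p) s = s)
    {g : LaurentSeries k} (hg : g ∈ IntermediateField.adjoin k S) :
    ∃ g' ∈ IntermediateField.adjoin k S, coeffMap (frobenius k p) g' = g := by
  induction hg using IntermediateField.adjoin_induction with
  | mem x hx => exact ⟨x, IntermediateField.subset_adjoin _ _ hx, hS x hx⟩
  | algebraMap c =>
    obtain ⟨c', rfl⟩ := hk c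
    exact ⟨algebraMap k _ c', IntermediateField.algebraMap_mem _ _, coeffMap_algebraMap _ _⟩
  | add x y _ _ hx hy =>
    obtain ⟨x', hx', rfl⟩ := hx
    obtain ⟨y', hy', rfl⟩ := hy
    exact ⟨x' + y', add_mem hx' hy', map_add _ _ _⟩
  | inv x _ hx =>
    obtain ⟨x', hx', rfl⟩ := hx
    exact ⟨x'⁻¹, inv_mem hx', map_inv₀ _ _⟩
  | mul x y _ _ hx hy =>
    obtain ⟨x', hx', rfl⟩ := hx
    obtain ⟨y', hy', rfl⟩ := hy
    exact ⟨x' * y', mul_mem hx' hy', map_mul _ _ _⟩

end Adjoin

end Fermat.Agent.S33.Inst.Good

end
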