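/-
S33, block INST-GOOD (owner helper113): the modular instance of the abstract depth theory
(`S33/Cech`, `S33/Depth`) at a prime `p ∤ M` of good reduction.

`K₀` is a subfield of `ℚ̄` such that `A ∩ K₀` is a discrete valuation ring (a number field, or the
inertia field of `A` with `ζ_p` adjoined), `F = FK K₀ M = FN M ∩ K₀((q))`.

`GoodInst M p A Hp K₀` is THE INTERFACE consumed by the proofs of `Mid.NodeOld1`, `Mid.NodeOld2`.
-/
import Fermat.Agent.S33.Depth.Defs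
import Fermat.Agent.S33.Mid.Nodes
import Fermat.Agent.S18.ModDefs
import Fermat.Agent.S18.Descent.HorizontalBC

set_option autoImplicit false

noncomputable section

namespace Fermat.Agent.S33.Inst.Good

open ModularCurve AlgebraicCurve Fermat.Agent.S24 Fermat.Agent.S24.B Fermat.Agent.S18 Fermat.Agent.GAL.E
  Fermat.Agent.GAL Fermat.Agent.C1 Fermat.Agent.S30

/-- The valuation ring `A ∩ K₀`. -/
abbrev rA (A : ValuationSubring Kbar) (K₀ : IntermediateField ℚ Kbar) : ValuationSubring K₀ :=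
  A.comap (algebraMap K₀ Kbar)

/-- The residue field of `A ∩ K₀`. -/
abbrev rk (A : ValuationSubring Kbar) (K₀ : IntermediateField ℚ Kbar) : Type :=
  IsLocalRing.ResidueField (rA A K₀)

/-- The embedding `FK K₀ M → FN M` (base change of the constants). -/
abbrev tb (M : ℕ) (K₀ : IntermediateField ℚ Kbar) : FK K₀ M →+* FN M :=
  Descent.toBar (modularFunctionFieldFull M) K₀

/-- **The interface.**  Everything the proofs of `NodeOld1`, `NodeOld2` need to know about the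
function field `FK K₀ M` of `X₀(M)` over `K₀`, its Gauss valuation above `p` and `T_p`. -/
structure GoodInst (M p : ℕ) [NeZero p] (A : ValuationSubring Kbar) (Hp : HeckeOp M p)
    (K₀ : IntermediateField ℚ Kbar) where
  /-- the two-chart model -/
  D : Cech.Data p (FK K₀ M)
  /-- the Gauss valuation and the reduction of `q`-expansions -/
  G : Depth.Gen D (rk A K₀)
  /-- the uniformiser of `A ∩ K₀` -/
  ϖ₀ : K₀
  unif₀ : IsUnif (rA A K₀) ϖ₀
  π_eq : D.π = algebraMap K₀ (FK K₀ M) ϖ₀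
  /-- `T_p` over `K₀` -/
  T : FK K₀ M →* FK K₀ M
  tb_T : ∀ u : FK K₀ M, tb M K₀ (T u) = Hp.T (tb M K₀ u)
  op : G.Op T
  root : G.RootStable
  frob : G.FrobStable
  /-- the valuation of `ζ_p - 1` -/
  j0 : ℕ
  hj0 : (p - 1) * j0 = D.e
  /-- `ζ_p - 1` is `ϖ₀ ^ j0` times a unit -/
  zeta_mem : (((zetaK p : Kbarˣ) : Kbar) - 1) / (ϖ₀ : Kbar) ^ j0 ∈ A
  zeta_inv_mem : ((((zetaK p : Kbarˣ) : Kbar) - 1) / (ϖ₀ : Kbar) ^ j0)⁻¹ ∈ A
  /-- `Rel` is equality of classes in `FN M ^× / p`-th powers -/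
  rel_iff : ∀ y y' : FK K₀ M, y ≠ 0 →
    (G.Rel y y' ↔ ∃ g : FN M, g ≠ 0 ∧ tb M K₀ y' = g ^ p * tb M K₀ y)
  /-- every `K₀`-rational representative of a class of `K_∞` has depth `≥ 1` -/
  depth1 : ∀ (u : FK K₀ M) (u₁ w : FN M), Cong1 A M u₁ → w ≠ 0 → tb M K₀ u = u₁ * w ^ p →
    G.HasDepth u 1
  /-- (KLp) -/
  klp : ∀ u : FK K₀ M, IsKum M p (tb M K₀ u) → D.Dvd (p * j0 + 1) (u - 1) →
    ∃ v : FN M, tb M K₀ u = v ^ p
  /-- (EQ) -/
  eq : ∀ s : E.GQ, s ∈ A.inertiaSubgroupIn ℚ → (∀ x ∈ K₀, s x ∈ K₀) → ∀ a : ℕ, IsCyc p 1 s a →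
    ∀ u : FK K₀ M, IsKum M p (tb M K₀ u) → D.Dvd (p * j0) (u - 1) →
      ∃ v : FN M, galF M s (tb M K₀ u) = tb M K₀ u ^ a * v ^ p

end Fermat.Agent.S33.Inst.Good

end
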