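/-
S33 / INST-GOOD (helper113): the KL-A package (`IsVert`, `IsCoord`, branch loci) for
`F = FK K₀ M`, `A₀ = A ∩ K₀` a discrete valuation ring, `Ow` = the Gauss valuation ring.
-/
import Fermat.Agent.S33.Inst.Good.Defs
import Fermat.Agent.S18.Gauss.VertJ
import Fermat.Agent.S18.Base.Coord
import Fermat.Agent.S18.Chart.Mono
import Fermat.Agent.S18.Places.Unram
import Fermat.Agent.S18.Places.Root
import Fermat.Agent.S18.Descent.Chart
import Fermat.Agent.S18.Descent.DVR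
import Fermat.Agent.S24.Export.Ramification

set_option autoImplicit false
set_option linter.style.haveILetI false

noncomputable section

namespace Fermat.Agent.S33.Inst.Good

open Polynomial IntermediateField ModularCurve AlgebraicCurve Fermat.Agent.S24 Fermat.Agent.S24.FF
  Fermat.Agent.S18 Fermat.Agent.S28.Export

/-- The hypotheses of `Cech.klp_core`, `Cech.eq_core` on the model. -/
structure IsPkg {K₀ F : Type*} [Field K₀] [Field F] [Algebra K₀ F] (A₀ : ValuationSubring K₀)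
    (ϖ₀ : K₀) (Ow : ValuationSubring F) (x : F) (g₁ g₂ : A₀[X]) : Prop where
  vert : IsVert A₀ ϖ₀ Ow K₀⟮x⟯
  coord : IsCoord A₀ ϖ₀ Ow K₀⟮x⟯ x
  coord' : IsCoord A₀ ϖ₀ Ow K₀⟮x⟯ x⁻¹
  sq₁ : Squarefree (g₁.map (IsLocalRing.residue A₀))
  sq₂ : Squarefree (g₂.map (IsLocalRing.residue A₀))
  ram₁ : IsUnramOutside x (g₁.map A₀.subtype)
  ram₂ : IsUnramOutside x⁻¹ (g₂.map A₀.subtype)

variable {M p : ℕ} (A : ValuationSubring Kbar) (K₀ : IntermediateField ℚ Kbar)

theorem tb_xK (BD : BaseData M p) : tb M K₀ (BD.xK K₀) = BD.xK Kbar :=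
  Subtype.ext (Descent.coeffMap_coeffEmb' _ _)

theorem map_map_int' {R S : Type*} [CommRing R] [CommRing S] (f : R →+* S) (g : ℤ[X]) :
    (g.map (Int.castRingHom R)).map f = g.map (Int.castRingHom S) := by
  rw [Polynomial.map_map]
  congr 1
  exact Subsingleton.elim _ _

variable {A K₀}

theorem isGood_FK {ϖ₀ : K₀} (h₀ : IsUnif (rA A K₀) ϖ₀) (M : ℕ) : IsGood (rA A K₀) (FK K₀ M) :=
  (Gauss.hasNf_FK h₀ M).isGood h₀

/-- The Gauss valuation ring of `FK K₀ M`. -/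
abbrev Ow (hg : IsGood (rA A K₀) (FK K₀ M)) : ValuationSubring (FK K₀ M) :=
  gaussRing (rA A K₀) (FK K₀ M) hg

theorem isGauss_Ow {ϖ₀ : K₀} (h₀ : IsUnif (rA A K₀) ϖ₀) (hg : IsGood (rA A K₀) (FK K₀ M)) :
    IsGauss (rA A K₀) ϖ₀ (FK K₀ M) (Ow hg) :=
  Gauss.isGauss_gaussRing h₀ hg

/-- `p` is divisible by the uniformiser. -/
theorem natCast_div_mem {ϖ₀ : K₀} (h₀ : IsUnif (rA A K₀) ϖ₀) (hA : A.LiesOverPrime p) :
    (p : K₀) / ϖ₀ ∈ rA A K₀ := by
  have h1 : (p : K₀) ∈ (rA A K₀).nonunits := Descent.restrict_liesOverPrime K₀ hA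
  rcases eq_or_ne (p : K₀) 0 with h0 | h0
  · rw [h0, zero_div]
    exact zero_mem _
  refine h₀.div_mem ((rA A K₀).nonunits_subset h1) fun hinv => ?_
  rw [ValuationSubring.mem_nonunits_iff_exists_mem_maximalIdeal] at h1
  obtain ⟨hx, hm⟩ := h1
  rw [IsLocalRing.mem_maximalIdeal, mem_nonunits_iff] at hm
  exact hm (IsUnit.of_mul_eq_one ⟨(p : K₀)⁻¹, hinv⟩ (Subtype.ext (mul_inv_cancel₀ h0)))

theorem isPkg [NeZero M] [Fact p.Prime] (hpM : ¬ p ∣ M) (BD : BaseData M p)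
    (hA : A.LiesOverPrime p) {ϖ₀ : K₀} (h₀ : IsUnif (rA A K₀) ϖ₀)
    (hg : IsGood (rA A K₀) (FK K₀ M)) :
    IsPkg (rA A K₀) ϖ₀ (Ow hg) (BD.xK K₀) (BD.g₁.map (Int.castRingHom (rA A K₀)))
      (BD.g₂.map (Int.castRingHom (rA A K₀))) := by
  have hℓA := natCast_div_mem h₀ hA
  have hG := isGauss_Ow h₀ hg
  obtain ⟨U, -, -⟩ := S28.Export.exists_good_UData M p hpM
  have hVj := isVert_j h₀ hpM hℓA U hG
  haveI : IsFF1 Kbar (modularFunctionFieldBar M) := S24.Export.isFF1 M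
  haveI : IsFF1 K₀ (FK K₀ M) := Descent.isFF1_modular M K₀
  have htr : Transcendental K₀ (BD.xK K₀) := transcendental_xK BD K₀
  have htr' : Transcendental K₀ (BD.xK K₀)⁻¹ := FF.transcendental_inv htr
  have htrbar : Transcendental Kbar (BD.xK Kbar) := transcendental_xK BD Kbar
  have htrbar' : Transcendental Kbar (BD.xK Kbar)⁻¹ := FF.transcendental_inv htrbar
  haveI : FiniteDimensional Kbar⟮BD.xK Kbar⟯ (FK Kbar M) := IsFF1.finite _ htrbar
  haveI : FiniteDimensional Kbar⟮(BD.xK Kbar)⁻¹⟯ (FK Kbar M) := IsFF1.finite _ htrbar'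
  haveI : Algebra.IsAlgebraic K₀ Kbar := inferInstance
  refine ⟨hVj.mono (adjoin_jK_le BD K₀), isCoord_base h₀ BD hG, isCoord_base_inv h₀ BD hG,
    squarefree_map_residue h₀ hℓA BD.g₁ BD.sep₁, squarefree_map_residue h₀ hℓA BD.g₂ BD.sep₂,
    ?_, ?_⟩
  · rw [map_map_int']
    apply isUnramOutside_descent (tb M K₀) (Descent.toBar_algebraMap (modularFunctionFieldFull M) K₀)
    rw [map_map_int', tb_xK]
    exact isUnramOutside_of_places htrbar _ fun v c hc hv => BD.ram₁ v c hc hv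
  · rw [map_map_int']
    apply isUnramOutside_descent (tb M K₀) (Descent.toBar_algebraMap (modularFunctionFieldFull M) K₀)
    rw [map_map_int', map_inv₀, tb_xK]
    exact isUnramOutside_of_places htrbar' _ fun v c hc hv => BD.ram₂ v c hc hv

end Fermat.Agent.S33.Inst.Good

end
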