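/-
S33 / INST-GOOD (architect helper113), block Arith, part 2 (task IG-B2, helper171):
the valuation of `ζ_p - 1` and the action of inertia on `ϖ₀ ^ j0`.
-/
import Fermat.Agent.S33.Inst.Good.Setup
import Fermat.Agent.S33.Cech.Mod.Defs
import Fermat.Agent.S33.Cech.Mod.Arith
import Fermat.Agent.Lib.InertiaField.Defs

set_option autoImplicit false
set_option linter.style.haveILetI false

noncomputable section

namespace Fermat.Agent.S33.Inst.Good

open Polynomial IntermediateField ModularCurve AlgebraicCurve Fermat.Agent.S24 Fermat.Agent.S24.B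
  Fermat.Agent.S24.FF Fermat.Agent.S18 Fermat.Agent.S28.Export Fermat.Agent.GAL Fermat.Agent.GAL.E
  Fermat.Agent.C1 Fermat.Agent.S30

variable {M p : ℕ} {A : ValuationSubring Kbar} {K₀ : IntermediateField ℚ Kbar} {ϖ₀ : K₀}

section Arith

theorem arithZeta_isPrimitiveRoot (p : ℕ) [NeZero p] :
    IsPrimitiveRoot ((zetaK p : Kbarˣ) : Kbar) p :=
  IsPrimitiveRoot.coe_units_iff.2 (isPrimitiveRoot_zetaK p)

theorem arithZeta_lt_one_mul {a z : Kbar} (ha : a ∈ A) (hz : A.valuation z < 1) :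
    A.valuation (a * z) < 1 := by
  rw [map_mul]
  exact mul_lt_of_le_one_of_lt ((A.valuation_le_one_iff a).mpr ha) hz

/-- `ζ_p - 1` is not a unit. -/
theorem arithZeta_val_sub_one_lt [NeZero p] (hp : p.Prime) (hA : A.LiesOverPrime p) :
    A.valuation (((zetaK p : Kbarˣ) : Kbar) - 1) < 1 := by
  have hprim := arithZeta_isPrimitiveRoot p
  have hζA : ((zetaK p : Kbarˣ) : Kbar) ∈ A :=
    Cech.arith_mem_of_pow_eq_one A hp.pos hprim.pow_eq_one
  have h1 := Cech.arith_val_natCast_eq A hp hprim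
  have h2 : A.valuation (p : Kbar) < 1 := (ValuationSubring.mem_nonunits_iff A).1 hA
  have h3 : A.valuation (1 - ((zetaK p : Kbarˣ) : Kbar)) ≤ 1 :=
    (A.valuation_le_one_iff _).2 (A.sub_mem A.one_mem hζA)
  have h4 : A.valuation (((zetaK p : Kbarˣ) : Kbar) - 1) =
      A.valuation (1 - ((zetaK p : Kbarˣ) : Kbar)) := Valuation.map_sub_swap _ _ _
  rw [h4]
  refine lt_of_le_of_ne h3 fun h5 => ?_
  rw [h1, h5, one_pow] at h2
  exact lt_irrefl _ h2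

set_option linter.unusedVariables false in
/-- the valuation of `ζ_p - 1` -/
theorem exists_j0 [NeZero p] (hp : p.Prime) (hA : A.LiesOverPrime p) (h₀ : IsUnif (rA A K₀) ϖ₀)
    (hζ : ((zetaK p : Kbarˣ) : Kbar) ∈ K₀) {η₀ : K₀} {e : ℕ}
    (hP : Cech.IsArithP p (rA A K₀) ϖ₀ η₀ e) :
    ∃ j0 : ℕ, (p - 1) * j0 = e ∧ (((zetaK p : Kbarˣ) : Kbar) - 1) / (ϖ₀ : Kbar) ^ j0 ∈ A ∧
      ((((zetaK p : Kbarˣ) : Kbar) - 1) / (ϖ₀ : Kbar) ^ j0)⁻¹ ∈ A := by
  have hprim : IsPrimitiveRoot (⟨((zetaK p : Kbarˣ) : Kbar), hζ⟩ : K₀) p :=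
    IsPrimitiveRoot.of_map_of_injective (f := algebraMap K₀ Kbar)
      (hf := (algebraMap K₀ Kbar).injective) (arithZeta_isPrimitiveRoot p)
  obtain ⟨j0, μ, hj, hμ, hμ', hμeq⟩ := Cech.exists_zeta_unif hp h₀ hP hprim
  have hϖ : (ϖ₀ : Kbar) ≠ 0 := fun h => h₀.ne_zero (Subtype.ext h)
  have e1 : (((zetaK p : Kbarˣ) : Kbar) - 1) / (ϖ₀ : Kbar) ^ j0 = (μ : Kbar) := by
    have h := congrArg (fun z : K₀ => (z : Kbar)) hμeq
    have h' : ((zetaK p : Kbarˣ) : Kbar) - 1 = (μ : Kbar) * (ϖ₀ : Kbar) ^ j0 := h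
    rw [h', mul_div_assoc, div_self (pow_ne_zero _ hϖ), mul_one]
  refine ⟨j0, hj, ?_, ?_⟩
  · rw [e1]
    exact hμ
  · rw [e1]
    exact hμ'

/-- inertia acts on `ϖ₀ ^ j0` through the cyclotomic character -/
theorem inertia_pow_j0 [NeZero p] (hp : p.Prime) (hA : A.LiesOverPrime p)
    (h₀ : IsUnif (rA A K₀) ϖ₀) {j0 : ℕ}
    (h1 : (((zetaK p : Kbarˣ) : Kbar) - 1) / (ϖ₀ : Kbar) ^ j0 ∈ A)
    (h2 : ((((zetaK p : Kbarˣ) : Kbar) - 1) / (ϖ₀ : Kbar) ^ j0)⁻¹ ∈ A)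
    (s : E.GQ) (hs : s ∈ A.inertiaSubgroupIn ℚ) (hsK : ∀ x ∈ K₀, s x ∈ K₀) (a : ℕ)
    (ha : IsCyc p 1 s a) (c : ℕ) (hc : c ≡ a [MOD p]) :
    (s ((ϖ₀ : Kbar) ^ j0) - (c : Kbar) * (ϖ₀ : Kbar) ^ j0) / (ϖ₀ : Kbar) ^ (j0 + 1) ∈ A := by
  have hprim := arithZeta_isPrimitiveRoot p
  have hlam := arithZeta_val_sub_one_lt (A := A) hp hA
  set ζ : Kbar := ((zetaK p : Kbarˣ) : Kbar) with hζdef
  have hζA : ζ ∈ A := Cech.arith_mem_of_pow_eq_one A hp.pos hprim.pow_eq_one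
  have hϖ : (ϖ₀ : Kbar) ≠ 0 := fun h => h₀.ne_zero (Subtype.ext h)
  set X : Kbar := (ϖ₀ : Kbar) ^ j0 with hXdef
  have hX : X ≠ 0 := pow_ne_zero _ hϖ
  have hl0 : ζ - 1 ≠ 0 := sub_ne_zero.2 (hprim.ne_one hp.one_lt)
  set ε : Kbar := (ζ - 1) / X with hεdef
  have hε0 : ε ≠ 0 := div_ne_zero hl0 hX
  have hdec : s ∈ A.decompositionSubgroup ℚ := Lib.InertiaField.inertia_le_decomposition A hs
  have hsε' : (s ε)⁻¹ ∈ A := by
    rw [← map_inv₀]
    exact Lib.InertiaField.apply_mem_of_mem_decomposition A hdec h2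
  have hsε0 : s ε ≠ 0 := (_root_.map_ne_zero s).2 hε0
  have hd : A.valuation (ε - s ε) < 1 := by
    rw [Valuation.map_sub_swap]
    exact (ValuationSubring.mem_nonunits_iff A).1 (Lib.InertiaField.apply_sub_mem_nonunits A hs h1)
  obtain ⟨R, hR, hG⟩ := Cech.arith_geom_sum_sub A hζA a
  set G : Kbar := ∑ i ∈ Finset.range a, ζ ^ i with hGdef
  have hGA : G ∈ A := sum_mem fun i _ => pow_mem hζA i
  have hsζ : s ζ = ζ ^ a := ha ζ (by rw [pow_one]; exact hprim.pow_eq_one)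
  have hsl : s (ζ - 1) = G * (ζ - 1) := by
    rw [map_sub, map_one, hsζ, hGdef, geom_sum_mul]
  have hXε : X = (ζ - 1) / ε := by
    rw [hεdef]
    field_simp
  have hsX : s X = G * (ζ - 1) / s ε := by
    rw [hXε, map_div₀, hsl]
  obtain ⟨k, hk⟩ := (Nat.modEq_iff_dvd.1 hc)
  have hk' : (a : Kbar) - (c : Kbar) = (k : Kbar) * (p : Kbar) := by
    have := congrArg (fun z : ℤ => (z : Kbar)) hk
    push_cast at this
    rw [this]
    ring
  -- the key element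
  have ht : s X / X - (c : Kbar) =
      (G * (s ε)⁻¹) * (ε - s ε) + R * (ζ - 1) + (k : Kbar) * (p : Kbar) := by
    have e1 : s X / X = G * ε * (s ε)⁻¹ := by
      rw [hsX, hXε]
      field_simp
    have e2 : G * ε * (s ε)⁻¹ = (G * (s ε)⁻¹) * (ε - s ε) + G := by
      field_simp
      ring
    rw [e1, e2, ← hk']
    linear_combination hG
  have hp1 : A.valuation (p : Kbar) < 1 := (ValuationSubring.mem_nonunits_iff A).1 hA
  have htv : A.valuation (s X / X - (c : Kbar)) < 1 := by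
    rw [ht]
    refine Valuation.map_add_lt _ (Valuation.map_add_lt _ ?_ ?_) ?_
    · exact arithZeta_lt_one_mul (A.mul_mem _ _ hGA hsε') hd
    · exact arithZeta_lt_one_mul hR hlam
    · exact arithZeta_lt_one_mul (intCast_mem A k) hp1
  -- descend to `K₀`
  have hXK : X ∈ K₀ := pow_mem ϖ₀.2 j0
  let t₀ : K₀ := ⟨s X, hsK X hXK⟩ / ϖ₀ ^ j0 - (c : K₀)
  have ht₀ : (t₀ : Kbar) = s X / X - (c : Kbar) := by
    simp [t₀, hXdef]
  have hgoal : (s X - (c : Kbar) * X) / (ϖ₀ : Kbar) ^ (j0 + 1) = ((t₀ / ϖ₀ : K₀) : Kbar) := by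
    have : ((t₀ / ϖ₀ : K₀) : Kbar) = (t₀ : Kbar) / (ϖ₀ : Kbar) := rfl
    rw [this, ht₀, pow_succ, ← hXdef]
    field_simp
  rw [hgoal]
  show t₀ / ϖ₀ ∈ rA A K₀
  by_cases h0 : t₀ = 0
  · rw [h0, zero_div]
    exact zero_mem _
  · refine h₀.div_mem ?_ ?_
    · show (t₀ : Kbar) ∈ A
      rw [ht₀]
      exact (A.valuation_le_one_iff _).1 htv.le
    · intro hinv
      have hinv' : (t₀ : Kbar)⁻¹ ∈ A := hinv
      rw [ht₀, ← A.valuation_le_one_iff, map_inv₀] at hinv'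
      have h0' : s X / X - (c : Kbar) ≠ 0 := by
        rw [← ht₀]
        exact fun h => h0 (Subtype.ext h)
      have hv0 : 0 < A.valuation (s X / X - (c : Kbar)) :=
        zero_lt_iff.2 ((_root_.map_ne_zero _).2 h0')
      exact absurd htv (not_lt.2 ((inv_le_one₀ hv0).1 hinv'))

end Arith

end Fermat.Agent.S33.Inst.Good

end
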