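/-
S33, block INST-GOOD (architect helper113), sub-block DESC (helper133).

Descent of the field of constants for subfields of Laurent series, ARBITRARY fields `L ⊆ L'`
(any characteristic): for a set `S ⊆ L((q))`,   `L'(S) ∩ L((q)) = L(S)`.
Instance: the function fields `modularFunctionFieldFullC k N = k(j(q^d) : d ∣ N)`.
-/
import Fermat.Agent.S18.Descent.Indep
import Fermat.Prelude.Def_ModularCurve_X0ModL
import Fermat.Prelude.Thm_ModularCurve_coeffMap_qExpand

set_option autoImplicit false

namespace Fermat.Agent.S33.Inst.Good.Desc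

open ModularCurve Fermat.Agent.S18.Descent

variable {L L' : Type*} [Field L] [Field L'] [Algebra L L']

local notation "ι" => coeffMap (algebraMap L L')

theorem coeffLin_algebraMap_mul (lam : L' →ₗ[L] L) (c : L') (x : LaurentSeries L') :
    coeffLin lam (algebraMap L' (LaurentSeries L') c * x) =
      coeffLin (lam.comp (LinearMap.mulLeft L c)) x := by
  ext k
  rw [algebraMap_laurentSeries_eq_single, coeffLin_coeff, coeffLin_coeff,
    HahnSeries.coeff_single_zero_mul]
  rfl

theorem coeffLin_coeffMap (lam : L' →ₗ[L] L) (f : LaurentSeries L) :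
    coeffLin lam (ι f) = f * algebraMap L (LaurentSeries L) (lam 1) := by
  have h := coeffLin_mul lam f (algebraMap L' (LaurentSeries L') 1)
  rw [map_one, mul_one] at h
  rw [h, ← coeffLin_algebraMap, map_one]

/-- every `L`-linear form on `L'`, applied coefficientwise, maps the ring `L'[S]` to `L[S]`. -/
theorem coeffLin_mem_adjoin (S : Set (LaurentSeries L)) {P : LaurentSeries L'}
    (hP : P ∈ Algebra.adjoin L' (ι '' S)) :
    ∀ lam : L' →ₗ[L] L, coeffLin lam P ∈ Algebra.adjoin L S := by
  -- `L'[S]` is the `L'`-span of the image of the monoid generated by `S`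
  have hspan : P ∈ @Submodule.span L' (LaurentSeries L') _ _ Algebra.toModule
      ((Submonoid.closure (ι '' S) : Submonoid (LaurentSeries L')) : Set (LaurentSeries L')) := by
    rw [← Algebra.adjoin_eq_span]
    exact hP
  clear hP
  have hmon : ∀ x ∈ Submonoid.closure (ι '' S), ∃ y ∈ Algebra.adjoin L S, ι y = x := by
    intro x hx
    induction hx using Submonoid.closure_induction with
    | mem x hx =>
      obtain ⟨y, hy, rfl⟩ := hx
      exact ⟨y, Algebra.subset_adjoin hy, rfl⟩
    | one => exact ⟨1, one_mem _, map_one _⟩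
    | mul x y _ _ hx hy =>
      obtain ⟨a, ha, rfl⟩ := hx
      obtain ⟨b, hb, rfl⟩ := hy
      exact ⟨a * b, mul_mem ha hb, map_mul _ _ _⟩
  induction hspan using Submodule.span_induction with
  | mem x hx =>
    intro lam
    obtain ⟨y, hy, rfl⟩ := hmon x hx
    rw [coeffLin_coeffMap]
    exact mul_mem hy (Subalgebra.algebraMap_mem _ _)
  | zero =>
    intro lam
    rw [coeffLin_zero]
    exact zero_mem _
  | add x y _ _ hx hy =>
    intro lam
    rw [coeffLin_add]
    exact add_mem (hx lam) (hy lam)
  | smul c x _ hx =>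
    intro lam
    rw [Algebra.smul_def, coeffLin_algebraMap_mul]
    exact hx _

theorem coeffMap_algebraMap_injective : Function.Injective (ι : LaurentSeries L → _) := by
  intro x y h
  ext k
  have := congrArg (fun z : LaurentSeries L' => z.coeff k) h
  exact (algebraMap L L').injective this

/-- **Descent of the field of constants** (arbitrary fields): `L'(S) ∩ L((q)) ⊆ L(S)`. -/
theorem mem_adjoin_of_coeffMap_mem (S : Set (LaurentSeries L)) {y : LaurentSeries L}
    (hy : ι y ∈ IntermediateField.adjoin L' (ι '' S)) : y ∈ IntermediateField.adjoin L S := by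
  obtain ⟨r, hr, s, hs, hrs⟩ := IntermediateField.mem_adjoin_iff_div.1 hy
  rcases eq_or_ne s 0 with rfl | hs0
  · rw [div_zero] at hrs
    have : y = 0 := coeffMap_algebraMap_injective (by rw [hrs, map_zero])
    rw [this]
    exact zero_mem _
  obtain ⟨k, hk⟩ : ∃ k, s.coeff k ≠ 0 := by
    by_contra hcon
    push Not at hcon
    exact hs0 (HahnSeries.ext (funext hcon))
  obtain ⟨lam, hlam⟩ : ∃ lam : L' →ₗ[L] L, lam (s.coeff k) ≠ 0 := by
    by_contra hcon
    push Not at hcon
    exact hk ((Module.forall_dual_apply_eq_zero_iff L (s.coeff k)).1 hcon)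
  have hls : coeffLin lam s ≠ 0 := by
    intro h0
    apply hlam
    rw [← coeffLin_coeff, h0]
    rfl
  have h1 : y * coeffLin lam s = coeffLin lam r := by
    rw [← coeffLin_mul, hrs, div_mul_cancel₀ _ hs0]
  have h2 : y = coeffLin lam r / coeffLin lam s := by
    rw [← h1, mul_div_cancel_right₀ _ hls]
  rw [h2]
  exact div_mem (IntermediateField.algebra_adjoin_le_adjoin L S (coeffLin_mem_adjoin S hr lam))
    (IntermediateField.algebra_adjoin_le_adjoin L S (coeffLin_mem_adjoin S hs lam))

/-- the easy inclusion: `L(S) ⊆ L'(S)`. -/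
theorem coeffMap_mem_adjoin (S : Set (LaurentSeries L)) {y : LaurentSeries L}
    (hy : y ∈ IntermediateField.adjoin L S) : ι y ∈ IntermediateField.adjoin L' (ι '' S) := by
  induction hy using IntermediateField.adjoin_induction with
  | mem x hx => exact IntermediateField.subset_adjoin _ _ ⟨x, hx, rfl⟩
  | algebraMap c =>
    have : ι (algebraMap L (LaurentSeries L) c) =
        algebraMap L' (LaurentSeries L') (algebraMap L L' c) := by
      rw [algebraMap_laurentSeries_eq_single, algebraMap_laurentSeries_eq_single]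
      ext k
      by_cases hk : k = 0
      · subst hk
        simp
      · simp [HahnSeries.coeff_single_of_ne hk]
    rw [this]
    exact IntermediateField.algebraMap_mem _ _
  | add x y _ _ hx hy => rw [map_add]; exact add_mem hx hy
  | inv x _ hx => rw [map_inv₀]; exact inv_mem hx
  | mul x y _ _ hx hy => rw [map_mul]; exact mul_mem hx hy

theorem coeffMap_mem_adjoin_iff (S : Set (LaurentSeries L)) {y : LaurentSeries L} :
    ι y ∈ IntermediateField.adjoin L' (ι '' S) ↔ y ∈ IntermediateField.adjoin L S :=
  ⟨mem_adjoin_of_coeffMap_mem S, coeffMap_mem_adjoin S⟩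

/-! ### the modular function fields -/

theorem image_divisorExpansionsC (N : ℕ) :
    ι '' divisorExpansionsC L N = divisorExpansionsC L' N := by
  ext x
  constructor
  · rintro ⟨_, ⟨d, hd0, hd, rfl⟩, rfl⟩
    exact ⟨d, hd0, hd, by rw [coeffMap_qExpand, coeffMap_jqModC]⟩
  · rintro ⟨d, hd0, hd, rfl⟩
    exact ⟨_, ⟨d, hd0, hd, rfl⟩, by rw [coeffMap_qExpand, coeffMap_jqModC]⟩

/-- `k'(X₀(N)) ∩ k((q)) = k(X₀(N))`. -/
theorem coeffMap_mem_fullC_iff (N : ℕ) {y : LaurentSeries L} :
    ι y ∈ modularFunctionFieldFullC L' N ↔ y ∈ modularFunctionFieldFullC L N := by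
  rw [modularFunctionFieldFullC, modularFunctionFieldFullC, ← image_divisorExpansionsC (L := L)]
  exact coeffMap_mem_adjoin_iff _

end Fermat.Agent.S33.Inst.Good.Desc
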