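/-
S33 / INST-GOOD (architect helper113), block Desc (task IG-E, proofs helper276): descent
`Kbar → K₀` for `FK K₀ M`, `K₀` an arbitrary intermediate field of `Kbar / ℚ`.
(The path `Good/Desc.lean` is taken by another sub-block, hence the name `DescBar.lean`.)
-/
import Fermat.Agent.S33.Inst.Good.Setup
import Fermat.Agent.BAD.Bridge.HorDiv
import Fermat.Agent.BAD.Bridge.PowDesc

set_option autoImplicit false
set_option linter.style.haveILetI false

noncomputable section

namespace Fermat.Agent.S33.Inst.Good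

open Polynomial IntermediateField ModularCurve AlgebraicCurve Fermat.Agent.S24 Fermat.Agent.S24.B
  Fermat.Agent.S24.FF Fermat.Agent.S18 Fermat.Agent.S28.Export Fermat.Agent.GAL Fermat.Agent.GAL.E
  Fermat.Agent.C1 Fermat.Agent.S30

variable {M p : ℕ} {A : ValuationSubring Kbar} {K₀ : IntermediateField ℚ Kbar} {ϖ₀ : K₀}

section Desc

theorem descBar_isAlgebraic (K₀ : IntermediateField ℚ Kbar) : Algebra.IsAlgebraic K₀ Kbar := by
  have : Algebra.IsAlgebraic ℚ Kbar := AlgebraicClosure.isAlgebraic ℚ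
  exact Algebra.IsAlgebraic.tower_top (K := ℚ) K₀

theorem descBar_isIntegral (K₀ : IntermediateField ℚ Kbar) :
    (algebraMap K₀ Kbar).IsIntegral := by
  have := descBar_isAlgebraic K₀
  intro c
  exact (Algebra.IsAlgebraic.isAlgebraic (R := K₀) c).isIntegral

theorem descBar_coe_tb (x : FK K₀ M) :
    ((tb M K₀ x : FN M) : LaurentSeries Kbar) =
      coeffMap (algebraMap K₀ Kbar) (x : LaurentSeries K₀) := rfl

/-- DESC: a series over `K₀` which lies in `FN M` lies in `FK K₀ M`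
(`BAD.Bridge.mem_laurentBaseChange_of_coeffMap_mem`) -/
theorem mem_FK_of_coeffMap_mem (y : LaurentSeries K₀)
    (hy : coeffMap (algebraMap K₀ Kbar) y ∈ modularFunctionFieldBar M) : y ∈ FK K₀ M := by
  have := descBar_isAlgebraic K₀
  exact BAD.Bridge.mem_laurentBaseChange_of_coeffMap_mem (L := K₀) (L' := Kbar)
    (modularFunctionFieldFull M) hy

/-- the series over `K₀` with the same coefficients -/
def descBarLift (K₀ : IntermediateField ℚ Kbar) (x : LaurentSeries Kbar)
    (hx : ∀ n : ℤ, x.coeff n ∈ K₀) : LaurentSeries K₀ where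
  coeff k := ⟨x.coeff k, hx k⟩
  isPWO_support' := x.isPWO_support.mono (by
    intro k hk
    simp only [Function.mem_support, ne_eq, HahnSeries.mem_support] at hk ⊢
    intro h0
    exact hk (Subtype.ext h0))

theorem descBar_coeffMap_lift (x : LaurentSeries Kbar) (hx : ∀ n : ℤ, x.coeff n ∈ K₀) :
    coeffMap (algebraMap K₀ Kbar) (descBarLift K₀ x hx) = x := by
  ext k
  rw [coeffMap_coeff]
  rfl

/-- an element of `FN M` with coefficients in `K₀` comes from `FK K₀ M` -/
theorem exists_tb_eq (x : FN M) (hx : ∀ n : ℤ, (x : LaurentSeries Kbar).coeff n ∈ K₀) :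
    ∃ y : FK K₀ M, tb M K₀ y = x := by
  have h : descBarLift K₀ (x : LaurentSeries Kbar) hx ∈ FK K₀ M := by
    apply mem_FK_of_coeffMap_mem
    rw [descBar_coeffMap_lift]
    exact x.2
  refine ⟨⟨_, h⟩, Subtype.ext ?_⟩
  rw [descBar_coe_tb]
  exact descBar_coeffMap_lift _ hx

/-- copy of `BAD.Bridge.exists_const_mul_pow_of_bc_eq_pow` for a general `K₀` -/
theorem exists_const_mul_pow (n : ℕ) (hn : n ≠ 0) (y : FK K₀ M) (hy : y ≠ 0) (v : FN M)
    (hv : tb M K₀ y = v ^ n) :
    ∃ (c : K₀) (g : FK K₀ M), c ≠ 0 ∧ g ≠ 0 ∧ y = algebraMap K₀ (FK K₀ M) c * g ^ n := by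
  have hy' : (y : LaurentSeries K₀) ≠ 0 := fun h => hy (Subtype.ext h)
  have hv' : coeffMap (algebraMap K₀ Kbar) (y : LaurentSeries K₀)
      = (v : LaurentSeries Kbar) ^ n := by
    rw [← descBar_coe_tb, hv]
    rfl
  obtain ⟨c, r, hc, hr0, hyr, hr⟩ :=
    BAD.Bridge.PowDesc_series (algebraMap K₀ Kbar) n hn _ hy' _ hv'
  have hmem : r ∈ FK K₀ M := by
    apply mem_FK_of_coeffMap_mem
    rw [hr, HahnSeries.C_apply, ← ModularCurve.algebraMap_laurentSeries_eq_single]
    exact mul_mem ((laurentBaseChange Kbar (modularFunctionFieldFull M)).algebraMap_mem _) v.2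
  refine ⟨c, ⟨r, hmem⟩, hc, fun h => hr0 (congrArg Subtype.val h), Subtype.ext ?_⟩
  rw [hyr, HahnSeries.C_apply, ← ModularCurve.algebraMap_laurentSeries_eq_single]
  rfl

/-- `FN M` is spanned over `Kbar` by the image of `FK K₀ M`. -/
theorem descBar_span (K₀ : IntermediateField ℚ Kbar) (M : ℕ) :
    @Submodule.span Kbar (FN M) _ _ Algebra.toModule (Set.range (tb M K₀) : Set (FN M)) = ⊤ := by
  have := descBar_isAlgebraic K₀
  rw [eq_top_iff]
  rintro ⟨x, hx⟩ -
  have h := BAD.Bridge.mem_span_of_mem_laurentBaseChange (L := K₀) (L' := Kbar)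
    (modularFunctionFieldFull M) hx
  have key : ∀ z ∈ Submodule.span Kbar ((coeffMap (algebraMap K₀ Kbar)) ''
      (laurentBaseChange K₀ (modularFunctionFieldFull M) : Set (LaurentSeries K₀))),
      ∃ y : FN M, (y : LaurentSeries Kbar) = z ∧
        y ∈ @Submodule.span Kbar (FN M) _ _ Algebra.toModule
          (Set.range (tb M K₀) : Set (FN M)) := by
    intro z hz
    induction hz using Submodule.span_induction with
    | mem z hz =>
      obtain ⟨t, ht, rfl⟩ := hz
      exact ⟨tb M K₀ ⟨t, ht⟩, rfl, Submodule.subset_span ⟨_, rfl⟩⟩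
    | zero => exact ⟨0, rfl, zero_mem _⟩
    | add z z' _ _ hz hz' =>
      obtain ⟨y, rfl, hy⟩ := hz
      obtain ⟨y', rfl, hy'⟩ := hz'
      exact ⟨y + y', rfl, add_mem hy hy'⟩
    | smul a z _ hz =>
      obtain ⟨y, rfl, hy⟩ := hz
      refine ⟨algebraMap Kbar (FN M) a * y, ?_, ?_⟩
      · rw [BAD.Bridge.span_smul_eq]
        rfl
      · rw [← Algebra.smul_def]
        exact Submodule.smul_mem _ a hy
  obtain ⟨y, hyx, hy⟩ := key x h
  have : y = ⟨x, hx⟩ := Subtype.ext hyx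
  rw [← this]
  exact hy

/-- copy of `BAD.Bridge.horDiv_of_isKum` (first half) for a general `K₀` -/
theorem dvd_ord_of_isKum [NeZero M] (n : ℕ) (u : FK K₀ M) (hu : IsKum M n (tb M K₀ u)) :
    ∀ w : Place K₀ (FK K₀ M), (n : ℤ) ∣ w.ord u := by
  have : IsFF1 Kbar (FN M) := S24.Export.isFF1 M
  have : IsFF1 K₀ (FK K₀ M) := S18.Descent.isFF1_modular M K₀
  intro w
  obtain ⟨v, hv⟩ := Descent.exists_placeOver (algebraMap K₀ Kbar) (tb M K₀)
    (fun a => Descent.toBar_algebraMap _ K₀ a) (descBar_isIntegral K₀) w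
  rw [← BAD.Bridge.PlaceOver.ord_eq_of_span (algebraMap K₀ Kbar) (tb M K₀)
    (fun a => Descent.toBar_algebraMap _ K₀ a) (descBar_isIntegral K₀) (descBar_span K₀ M) hv u]
  exact hu v

theorem rootData_of_isKum [NeZero M] {x : FK K₀ M} (hx : Transcendental K₀ x) {n : ℕ}
    (hn : n ≠ 0) {u : FK K₀ M} (hu0 : u ≠ 0) (hu : IsKum M n (tb M K₀ u)) :
    RootData (chart (⊤ : Subring K₀) x) 1 n u := by
  have : IsFF1 Kbar (FN M) := S24.Export.isFF1 M
  have : IsFF1 K₀ (FK K₀ M) := S18.Descent.isFF1_modular M K₀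
  have : FiniteDimensional K₀⟮x⟯ (FK K₀ M) := IsFF1.finite _ hx
  exact S18.rootData_of_places hx hn hu0 (fun v _ => dvd_ord_of_isKum n u hu v)

/-- `s ^ n * u` algebraic over `K₀` implies that `u` is an `n`-th power in `FN M` -/
theorem exists_pow_of_isAlgebraic {n : ℕ} (hn : n ≠ 0) {s u : FK K₀ M} (hs : s ≠ 0)
    (h : IsAlgebraic K₀ (s ^ n * u)) : ∃ v : FN M, tb M K₀ u = v ^ n := by
  obtain ⟨c, hc⟩ := S18.exists_pow_eq_of_isAlgebraic (K := Kbar) (F := FN M) (tb M K₀)
    (fun a => Descent.toBar_algebraMap _ K₀ a) hn h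
  refine ⟨algebraMap Kbar (FN M) c / tb M K₀ s, ?_⟩
  have hιs : tb M K₀ s ≠ 0 := (_root_.map_ne_zero (tb M K₀)).mpr hs
  rw [map_mul, map_pow] at hc
  rw [div_pow, ← hc]
  field_simp

end Desc

end Fermat.Agent.S33.Inst.Good

end
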