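/-
S33 / INST-GOOD (architect helper113), block Hecke, node IG-F2 (proof helper298).
The computation behind formula `(*)`: `T_p (1 + ϖ ^ m h) = 1 + ϖ ^ m h'`, `h'(q) ≡ h(q ^ p)`,
on the level of `q`-expansions over `ℚ̄` with coefficients in the valuation ring `A`.
-/
import Fermat.Agent.GAL.E.HeckeRed

set_option autoImplicit false

noncomputable section

namespace Fermat.Agent.S33.Inst.Good

open ModularCurve AlgebraicCurve Fermat.Agent.S24 Fermat.Agent.S24.B Fermat.Agent.GAL.E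

/-- `∏ (1 + x f b) = 1 + x ∑ f b + x² r`. -/
theorem HeckeStar_prod_one_add {R ι : Type*} [CommRing R] (s : Finset ι) (x : R) (f : ι → R) :
    ∃ r : R, ∏ b ∈ s, (1 + x * f b) = 1 + x * ∑ b ∈ s, f b + x ^ 2 * r := by
  classical
  induction s using Finset.induction_on with
  | empty => exact ⟨0, by simp⟩
  | insert a s ha ih =>
    obtain ⟨r, hr⟩ := ih
    refine ⟨r + f a * ∑ b ∈ s, f b + x * f a * r, ?_⟩
    rw [Finset.prod_insert ha, Finset.sum_insert ha, hr]
    ring

/-- `∑_{b < p} ξ ^ b` is `p` or `0` for a `p`-th root of unity `ξ`. -/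
theorem HeckeStar_geom_sum {C : Type*} [Field C] {p : ℕ} {ξ : C} (hξ : ξ ^ p = 1) :
    ∑ b ∈ Finset.range p, ξ ^ b = p ∨ ∑ b ∈ Finset.range p, ξ ^ b = 0 := by
  rcases eq_or_ne ξ 1 with rfl | h1
  · left; simp
  · right; rw [geom_sum_eq h1, hξ, sub_self, zero_div]

theorem HeckeStar_coeff_C_mul {C : Type*} [CommRing C] (a : C) (f : LaurentSeries C) (n : ℤ) :
    (HahnSeries.C a * f).coeff n = a * f.coeff n := by
  rw [HahnSeries.C_mul_eq_smul, HahnSeries.coeff_smul, smul_eq_mul]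

/-- the sum of the twists of an integral series is divisible by `p`, hence by `π`. -/
theorem HeckeStar_sum_twist (A : ValuationSubring Kbar) {p : ℕ} {ζ : Kbarˣ} (hζ : ζ ^ p = 1)
    {πb : Kbar} (hπ0 : πb ≠ 0) (hπ : (p : Kbar) / πb ∈ A) (x : LaurentSeries A) :
    ∃ S : LaurentSeries A, HahnSeries.C πb * incl A S =
      ∑ b ∈ Finset.range p, twist (ζ ^ b) (incl A x) := by
  obtain ⟨S, hS⟩ := exists_incl_eq A
    (HahnSeries.C πb⁻¹ * ∑ b ∈ Finset.range p, twist (ζ ^ b) (incl A x)) (by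
      intro n
      rw [HeckeStar_coeff_C_mul, HahnSeries.coeff_sum]
      have h1 : ∀ b ∈ Finset.range p, (twist (ζ ^ b) (incl A x)).coeff n =
          ((ζ ^ n : Kbarˣ) : Kbar) ^ b * (x.coeff n : Kbar) := by
        intro b _
        rw [twist_coeff, coeff_incl, ← Units.val_pow_eq_pow_val]
        congr 2
        rw [← zpow_natCast, ← zpow_natCast, ← zpow_mul, ← zpow_mul, mul_comm]
      rw [Finset.sum_congr rfl h1, ← Finset.sum_mul]
      have hξ : ((ζ ^ n : Kbarˣ) : Kbar) ^ p = 1 := by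
        rw [← Units.val_pow_eq_pow_val, ← zpow_natCast, ← zpow_mul, mul_comm, zpow_mul,
          zpow_natCast, hζ, one_zpow, Units.val_one]
      rcases HeckeStar_geom_sum hξ with h | h
      · rw [h, ← mul_assoc, inv_mul_eq_div]
        exact A.mul_mem _ _ hπ (x.coeff n).2
      · rw [h, zero_mul, mul_zero]
        exact A.zero_mem)
  refine ⟨S, ?_⟩
  rw [hS, ← mul_assoc, ← map_mul, mul_inv_cancel₀ hπ0, map_one, one_mul]

theorem HeckeStar_incl_C (A : ValuationSubring Kbar) (a : A) :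
    incl A (HahnSeries.C a) = HahnSeries.C (a : Kbar) := by
  rw [HahnSeries.C_apply, HahnSeries.C_apply]
  exact coeffMap_single _ _ _

theorem HeckeStar_twist_one_add (ζ : Kbarˣ) (c : Kbar) (m : ℕ) (H : LaurentSeries Kbar) :
    twist ζ (1 + HahnSeries.C c ^ m * H) = 1 + HahnSeries.C c ^ m * twist ζ H := by
  rw [map_add, map_one, map_mul, map_pow, twist_C]

/-- **The computation behind `(*)`.** -/
theorem HeckeStar_core (A : ValuationSubring Kbar) {p : ℕ} [NeZero p] {ζ : Kbarˣ} (hp : p.Prime)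
    (hA : A.LiesOverPrime p) (hζ : ζ ^ p = 1)
    {πb : Kbar} (hπ0 : πb ≠ 0) (hπA : πb ∈ A) (hπ : (p : Kbar) / πb ∈ A) {m : ℕ} (hm : 1 ≤ m)
    (H Y : LaurentSeries Kbar) (hH : ∀ n, H.coeff n ∈ A)
    (hY : qExpand Kbar p Y = qExpand Kbar (p * p) (1 + HahnSeries.C πb ^ m * H) *
      ∏ b ∈ Finset.range p, twist (ζ ^ b) (1 + HahnSeries.C πb ^ m * H)) :
    ∃ R : LaurentSeries Kbar, (∀ n, R.coeff n ∈ A) ∧
      Y = 1 + HahnSeries.C πb ^ m * (qExpand Kbar p H + HahnSeries.C πb * R) := by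
  obtain ⟨x, rfl⟩ := exists_incl_eq A H hH
  set c : LaurentSeries Kbar := HahnSeries.C πb with hc
  have hc0 : c ≠ 0 := by
    rw [hc]
    exact (map_ne_zero (HahnSeries.C : Kbar →+* LaurentSeries Kbar)).2 hπ0
  set c₀ : LaurentSeries A := HahnSeries.C (⟨πb, hπA⟩ : A) with hc₀
  have hcc : incl A c₀ = c := HeckeStar_incl_C A _
  -- the twists
  have htw : ∀ b : ℕ, ∃ x' : LaurentSeries A, incl A x' = twist (ζ ^ b) (incl A x) ∧
      red A x' = red A x := fun b =>
    exists_twist A p hp hA (ζ ^ b) (by rw [← pow_mul, mul_comm, pow_mul, hζ, one_pow]) x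
  choose t ht _ using htw
  obtain ⟨S, hS⟩ := HeckeStar_sum_twist A hζ hπ0 hπ x
  have hsum : ∑ b ∈ Finset.range p, t b = c₀ * S := by
    apply incl_injective A
    rw [map_sum, map_mul, hcc, hS]
    exact Finset.sum_congr rfl fun b _ => ht b
  obtain ⟨r, hr⟩ := HeckeStar_prod_one_add (Finset.range p) (c₀ ^ m) t
  obtain ⟨m', rfl⟩ : ∃ m', m = m' + 1 := ⟨m - 1, by omega⟩
  set E₀ : LaurentSeries A := qExpand A (p * p) x with hE₀
  -- the integral remainder
  set R₄ : LaurentSeries A := (S + c₀ ^ m' * r) * (1 + c₀ ^ (m' + 1) * E₀) with hR₄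
  have hprod : (1 + c₀ ^ (m' + 1) * E₀) * ∏ b ∈ Finset.range p, (1 + c₀ ^ (m' + 1) * t b) =
      1 + c₀ ^ (m' + 1) * (E₀ + c₀ * R₄) := by
    rw [hr, hsum, hR₄]
    ring
  have hY' : qExpand Kbar p Y = 1 + c ^ (m' + 1) * (qExpand Kbar (p * p) (incl A x) +
      c * incl A R₄) := by
    have h1 := congrArg (incl A) hprod
    simp only [map_mul, map_add, map_one, map_pow, map_prod, hcc, ht] at h1
    rw [hE₀, coeffMap_qExpand_comm] at h1
    rw [hY, ← h1, map_add, map_one, map_mul, map_pow, hc, qExpand_C]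
    congr 1
    exact Finset.prod_congr rfl fun b _ => HeckeStar_twist_one_add _ _ _ _
  -- divide
  set R : LaurentSeries Kbar := ((Y - 1) / c ^ (m' + 1) - qExpand Kbar p (incl A x)) / c with hR
  have hYR : Y = 1 + c ^ (m' + 1) * (qExpand Kbar p (incl A x) + c * R) := by
    rw [hR]
    field_simp
    ring
  have hqc : qExpand Kbar p c = c := by rw [hc, qExpand_C]
  have hRR : qExpand Kbar p R = incl A R₄ := by
    have h2 : qExpand Kbar p Y = 1 + c ^ (m' + 1) * (qExpand Kbar (p * p) (incl A x) +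
        c * qExpand Kbar p R) := by
      conv_lhs => rw [hYR]
      rw [map_add, map_one, map_mul, map_pow, map_add, map_mul, hqc, qExpand_qExpand]
    rw [hY'] at h2
    have h3 := mul_left_cancel₀ (pow_ne_zero (m' + 1) hc0) (add_left_cancel h2)
    exact (mul_left_cancel₀ hc0 (add_left_cancel h3)).symm
  refine ⟨R, fun n => ?_, hYR⟩
  rw [← qExpand_coeff_mul p R n, hRR, coeff_incl]
  exact (R₄.coeff _).2

end Fermat.Agent.S33.Inst.Good

end
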