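/-
S33 / INST-GOOD (architect helper113), block Hecke, node IG-F2 (proof helper298).
Formula `(*)` for `FK K₀ M`, with the two facts of block `Res` that it uses
(`div_pow_mem_Ow_iff`, `coeff_res`) as explicit hypotheses.  The wrapper is `HeckeStar.lean`.
-/
import Fermat.Agent.S33.Inst.Good.Setup
import Fermat.Agent.S33.Inst.Good.HeckeStarCore

set_option autoImplicit false
set_option linter.style.haveILetI false

noncomputable section

namespace Fermat.Agent.S33.Inst.Good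

open Polynomial IntermediateField ModularCurve AlgebraicCurve Fermat.Agent.S24 Fermat.Agent.S24.B
  Fermat.Agent.S24.FF Fermat.Agent.S18 Fermat.Agent.S28.Export Fermat.Agent.GAL Fermat.Agent.GAL.E
  Fermat.Agent.C1 Fermat.Agent.S30

variable {M p : ℕ} {A : ValuationSubring Kbar} {K₀ : IntermediateField ℚ Kbar} {ϖ₀ : K₀}

/-- the coefficients of `w / c` -/
theorem HeckeStar_coeff_div (w : FK K₀ M) (c : K₀) (n : ℤ) :
    ((w / algebraMap K₀ (FK K₀ M) c : FK K₀ M) : LaurentSeries K₀).coeff n =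
      (w : LaurentSeries K₀).coeff n / c := by
  rw [div_eq_inv_mul, ← map_inv₀]
  show (algebraMap K₀ (LaurentSeries K₀) c⁻¹ * (w : LaurentSeries K₀)).coeff n = _
  rw [algebraMap_laurentSeries_eq_single, HahnSeries.coeff_single_mul, sub_zero, div_eq_inv_mul]

/-- the `q`-expansion over `ℚ̄` of `1 + ϖ ^ m h` -/
theorem HeckeStar_coe_tb (m : ℕ) (h : FK K₀ M) :
    ((tb M K₀ (1 + algebraMap K₀ (FK K₀ M) ϖ₀ ^ m * h) : FN M) : LaurentSeries Kbar) =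
      1 + HahnSeries.C ((ϖ₀ : K₀) : Kbar) ^ m *
        coeffMap (algebraMap K₀ Kbar) (h : LaurentSeries K₀) := by
  have h1 : ((1 + algebraMap K₀ (FK K₀ M) ϖ₀ ^ m * h : FK K₀ M) : LaurentSeries K₀) =
      1 + (algebraMap K₀ (LaurentSeries K₀) ϖ₀) ^ m * (h : LaurentSeries K₀) := rfl
  show coeffMap (algebraMap K₀ Kbar) _ = _
  rw [h1, map_add, map_one, map_mul, map_pow, Descent.coeffMap_algebraMap',
    algebraMap_laurentSeries_eq_single]
  rfl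

section Hecke

variable [NeZero p]

/-- formula `(*)`, modulo block `Res`. -/
theorem T_star_of (hp : p.Prime) (hA : A.LiesOverPrime p) (h₀ : IsUnif (rA A K₀) ϖ₀)
    (hg : IsGood (rA A K₀) (FK K₀ M)) (Hp : HeckeOp M p)
    (T : FK K₀ M →* FK K₀ M) (hT : ∀ u : FK K₀ M, tb M K₀ (T u) = Hp.T (tb M K₀ u))
    (hdiv : ∀ (m : ℕ) (z : FK K₀ M), z / algebraMap K₀ (FK K₀ M) ϖ₀ ^ m ∈ Ow hg ↔
      ∀ n : ℤ, (z : LaurentSeries K₀).coeff n / ϖ₀ ^ m ∈ rA A K₀)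
    (hcoeff : ∀ (z : Ow hg) (n : ℤ) (hz : ((z : FK K₀ M) : LaurentSeries K₀).coeff n ∈ rA A K₀),
      (redHom hg z).coeff n = IsLocalRing.residue (rA A K₀) ⟨_, hz⟩)
    (m : ℕ) (hm : 1 ≤ m) (h : Ow hg) :
    ∃ h' : Ow hg, T (1 + algebraMap K₀ (FK K₀ M) ϖ₀ ^ m * (h : FK K₀ M)) =
        1 + algebraMap K₀ (FK K₀ M) ϖ₀ ^ m * (h' : FK K₀ M) ∧
      redHom hg h' = qExpand (rk A K₀) p (redHom hg h) := by
  set ι : K₀ →+* Kbar := algebraMap K₀ Kbar with hι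
  have hϖ0 : ϖ₀ ≠ 0 := h₀.ne_zero
  have hπ0 : ((ϖ₀ : K₀) : Kbar) ≠ 0 := fun h0 => hϖ0 (Subtype.ext h0)
  have hπF : algebraMap K₀ (FK K₀ M) ϖ₀ ≠ 0 := (_root_.map_ne_zero _).2 hϖ0
  have hπA : ((ϖ₀ : K₀) : Kbar) ∈ A := h₀.mem
  have hπp : ((p : ℕ) : Kbar) / ((ϖ₀ : K₀) : Kbar) ∈ A := by
    have h1 : ι ((p : K₀) / ϖ₀) ∈ A := natCast_div_mem h₀ hA
    rwa [map_div₀, map_natCast] at h1
  -- the coefficients of `h` are integral
  have hh : ∀ n : ℤ, ((h : FK K₀ M) : LaurentSeries K₀).coeff n ∈ rA A K₀ := by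
    have h1 := (hdiv 0 (h : FK K₀ M)).1 (by rw [pow_zero, div_one]; exact h.2)
    intro n
    have h2 := h1 n
    rwa [pow_zero, div_one] at h2
  set u : FK K₀ M := 1 + algebraMap K₀ (FK K₀ M) ϖ₀ ^ m * (h : FK K₀ M) with hu
  set H : LaurentSeries Kbar := coeffMap ι ((h : FK K₀ M) : LaurentSeries K₀) with hH
  set Y : LaurentSeries Kbar := coeffMap ι ((T u : FK K₀ M) : LaurentSeries K₀) with hY
  have hYT : Y = ((Hp.T (tb M K₀ u) : FN M) : LaurentSeries Kbar) := by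
    rw [← hT u]
    rfl
  have hq := Hp.qExpand_T (tb M K₀ u)
  rw [← hYT, hu, HeckeStar_coe_tb m (h : FK K₀ M), ← hH] at hq
  obtain ⟨R, hR, hYR⟩ := HeckeStar_core A hp hA (isPrimitiveRoot_zetaK p).pow_eq_one hπ0 hπA hπp hm
    H Y (fun n => hh n) hq
  -- coefficients
  set g : LaurentSeries K₀ := qExpand K₀ p ((h : FK K₀ M) : LaurentSeries K₀) with hgdef
  have hgH : qExpand Kbar p H = coeffMap ι g := by rw [hH, hgdef, coeffMap_qExpand_comm]
  have hgA : ∀ n : ℤ, g.coeff n ∈ rA A K₀ := by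
    intro n
    by_cases hn : (p : ℤ) ∣ n
    · obtain ⟨k, rfl⟩ := hn
      rw [hgdef, qExpand_coeff_mul]
      exact hh k
    · rw [hgdef, qExpand_coeff_of_not_dvd p _ hn]
      exact (rA A K₀).zero_mem
  have hkey : ∀ n : ℤ, ι (((T u - 1 : FK K₀ M) : LaurentSeries K₀).coeff n / ϖ₀ ^ m) =
      ι (g.coeff n) + ((ϖ₀ : K₀) : Kbar) * R.coeff n := by
    intro n
    have h1 : coeffMap ι ((T u - 1 : FK K₀ M) : LaurentSeries K₀) =
        HahnSeries.C (((ϖ₀ : K₀) : Kbar) ^ m) * (coeffMap ι g + HahnSeries.C ((ϖ₀ : K₀) : Kbar) * R) := by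
      have h2 : ((T u - 1 : FK K₀ M) : LaurentSeries K₀) =
          ((T u : FK K₀ M) : LaurentSeries K₀) - 1 := rfl
      rw [h2, map_sub, map_one, ← hY, hYR, hgH, map_pow]
      ring
    have h3 := congrArg (fun S : LaurentSeries Kbar => S.coeff n) h1
    simp only [coeffMap_coeff, HeckeStar_coeff_C_mul, HahnSeries.coeff_add] at h3
    rw [map_div₀, h3, map_pow]
    have h4 : ι ϖ₀ = ((ϖ₀ : K₀) : Kbar) := rfl
    rw [h4, mul_div_cancel_left₀ _ (pow_ne_zero m hπ0)]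
  have hmem : ∀ n : ℤ, ((T u - 1 : FK K₀ M) : LaurentSeries K₀).coeff n / ϖ₀ ^ m ∈ rA A K₀ := by
    intro n
    show ι _ ∈ A
    rw [hkey n]
    exact A.add_mem _ _ (hgA n) (A.mul_mem _ _ hπA (hR n))
  have hOw : (T u - 1) / algebraMap K₀ (FK K₀ M) ϖ₀ ^ m ∈ Ow hg := (hdiv m _).2 hmem
  refine ⟨⟨_, hOw⟩, ?_, ?_⟩
  · show T u = 1 + algebraMap K₀ (FK K₀ M) ϖ₀ ^ m * ((T u - 1) / algebraMap K₀ (FK K₀ M) ϖ₀ ^ m)
    rw [mul_div_cancel₀ _ (pow_ne_zero m hπF)]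
    ring
  · ext n
    have hc' : (((T u - 1) / algebraMap K₀ (FK K₀ M) ϖ₀ ^ m : FK K₀ M) :
        LaurentSeries K₀).coeff n = ((T u - 1 : FK K₀ M) : LaurentSeries K₀).coeff n / ϖ₀ ^ m := by
      rw [← map_pow, HeckeStar_coeff_div]
    have hz : (((⟨_, hOw⟩ : Ow hg) : FK K₀ M) : LaurentSeries K₀).coeff n ∈ rA A K₀ := by
      show (((T u - 1) / algebraMap K₀ (FK K₀ M) ϖ₀ ^ m : FK K₀ M) :
        LaurentSeries K₀).coeff n ∈ rA A K₀
      rw [hc']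
      exact hmem n
    rw [hcoeff _ n hz]
    have hres : IsLocalRing.residue (rA A K₀) ⟨_, hz⟩ =
        IsLocalRing.residue (rA A K₀) ⟨g.coeff n, hgA n⟩ := by
      rw [← sub_eq_zero, ← map_sub, Gauss.residue_eq_zero_iff h₀]
      show ι (((((T u - 1) / algebraMap K₀ (FK K₀ M) ϖ₀ ^ m : FK K₀ M) :
        LaurentSeries K₀).coeff n - g.coeff n) / ϖ₀) ∈ A
      rw [hc', map_div₀, map_sub, hkey n, add_sub_cancel_left]
      have h4 : ι ϖ₀ = ((ϖ₀ : K₀) : Kbar) := rfl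
      rw [h4, mul_div_cancel_left₀ _ hπ0]
      exact hR n
    rw [hres]
    by_cases hn : (p : ℤ) ∣ n
    · obtain ⟨k, rfl⟩ := hn
      rw [qExpand_coeff_mul p (redHom hg h) k, hcoeff h k (hh k)]
      congr 1
      apply Subtype.ext
      show g.coeff (p * k) = _
      rw [hgdef, qExpand_coeff_mul]
    · rw [qExpand_coeff_of_not_dvd p (redHom hg h) hn]
      have h5 : (⟨g.coeff n, hgA n⟩ : rA A K₀) = 0 :=
        Subtype.ext (qExpand_coeff_of_not_dvd p ((h : FK K₀ M) : LaurentSeries K₀) hn)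
      rw [h5, map_zero]

end Hecke

end Fermat.Agent.S33.Inst.Good

end
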