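/-
S33 / INST-GOOD (architect helper113), block Sigma (helper131).

The coefficientwise action on `FK K₀ M` of an element `s` of the inertia group of `A` which
stabilises `K₀`.  The Gauss ring `Ow` consists of the QUOTIENTS `G₁ / G₂` of integral series with
`G₂` of nonzero reduction (`S28.Export.Red`); `s` is applied to numerator and denominator.
-/
import Fermat.Agent.S33.Inst.Good.Setup
import Fermat.Agent.Lib.InertiaField.Defs

set_option autoImplicit false
set_option linter.style.haveILetI false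

noncomputable section

namespace Fermat.Agent.S33.Inst.Good

open Polynomial IntermediateField ModularCurve AlgebraicCurve Fermat.Agent.S24 Fermat.Agent.S24.B
  Fermat.Agent.S24.FF Fermat.Agent.S18 Fermat.Agent.S28.Export Fermat.Agent.GAL Fermat.Agent.GAL.E
  Fermat.Agent.C1 Fermat.Agent.S30

/-! ### Abstract part: an endomorphism of `K` congruent to the identity modulo `ϖ` -/

section SigmaAbs

variable {K : Type*} [Field K] {O : ValuationSubring K} {ϖ : K} {t : K →+* K}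

/-- `t G = G + ϖ H` for integral series. -/
theorem sigma_exists_quot (hϖ : ϖ ≠ 0) (ht : ∀ a ∈ O, (t a - a) / ϖ ∈ O) (G : LaurentSeries O) :
    ∃ H : LaurentSeries O,
      coeffMap t (iota O G) = iota O G + HahnSeries.C ϖ * iota O H := by
  refine ⟨{ coeff := fun n => ⟨(t (G.coeff n : K) - (G.coeff n : K)) / ϖ, ht _ (G.coeff n).2⟩
            isPWO_support' := G.isPWO_support.mono (by
              intro n hn
              simp only [Function.mem_support, ne_eq] at hn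
              simp only [HahnSeries.mem_support, ne_eq]
              intro h
              apply hn
              apply Subtype.ext
              simp [h]) }, ?_⟩
  ext n
  rw [HahnSeries.coeff_add, HahnSeries.C_mul_eq_smul, HahnSeries.coeff_smul]
  show t (G.coeff n : K) = (G.coeff n : K) + ϖ * ((t (G.coeff n : K) - (G.coeff n : K)) / ϖ)
  field_simp
  ring

theorem sigma_iota_C (c : O) : iota O (HahnSeries.C c) = HahnSeries.C (c : K) := by
  change coeffMap O.subtype (HahnSeries.single 0 c) = _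
  rw [coeffMap_single]
  rfl

theorem sigma_rho_C (c : O) :
    rho O (HahnSeries.C c) = HahnSeries.C (IsLocalRing.residue O c) := by
  change coeffMap (IsLocalRing.residue O) (HahnSeries.single 0 c) = _
  rw [coeffMap_single]
  rfl

/-- the two consequences for `Red`. -/
theorem sigma_red (hϖ : ϖ ≠ 0) (hϖO : ϖ ∈ O) (hϖi : ϖ⁻¹ ∉ O)
    (ht : ∀ a ∈ O, (t a - a) / ϖ ∈ O) {f : LaurentSeries K}
    {g : LaurentSeries (IsLocalRing.ResidueField O)} (h : Red O f g) :
    Red O (coeffMap t f) g ∧ ∃ g', Red O ((coeffMap t f - f) / HahnSeries.C ϖ) g' := by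
  obtain ⟨G₁, G₂, h2, hf, hg⟩ := h
  obtain ⟨H₁, hH₁⟩ := sigma_exists_quot hϖ ht G₁
  obtain ⟨H₂, hH₂⟩ := sigma_exists_quot hϖ ht G₂
  have hres : IsLocalRing.residue O ⟨ϖ, hϖO⟩ = 0 := by
    rw [IsLocalRing.residue_eq_zero_iff, IsLocalRing.mem_maximalIdeal, mem_nonunits_iff]
    intro hu
    obtain ⟨v, hv⟩ := hu.exists_right_inv
    apply hϖi
    have hv' : ϖ * (v : K) = 1 := congrArg Subtype.val hv
    rw [← eq_inv_of_mul_eq_one_right hv']
    exact v.2
  have hC : (HahnSeries.C ϖ : LaurentSeries K) ≠ 0 := by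
    intro h0
    apply hϖ
    have := congrArg (fun x => HahnSeries.coeff x 0) h0
    simpa using this
  have hi : ∀ G H : LaurentSeries O, iota O (G + HahnSeries.C (⟨ϖ, hϖO⟩ : O) * H) =
      iota O G + HahnSeries.C ϖ * iota O H := by
    intro G H
    rw [map_add, map_mul, sigma_iota_C]
  have hr : ∀ G H : LaurentSeries O, rho O (G + HahnSeries.C (⟨ϖ, hϖO⟩ : O) * H) = rho O G := by
    intro G H
    rw [map_add, map_mul, sigma_rho_C, hres, map_zero, zero_mul, add_zero]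
  have hf' : coeffMap t f * coeffMap t (iota O G₂) = coeffMap t (iota O G₁) := by
    rw [← map_mul, hf]
  refine ⟨⟨G₁ + HahnSeries.C (⟨ϖ, hϖO⟩ : O) * H₁, G₂ + HahnSeries.C (⟨ϖ, hϖO⟩ : O) * H₂, ?_, ?_,
    ?_⟩, ?_⟩
  · rw [hr]
    exact h2
  · rw [hi, hi, ← hH₁, ← hH₂]
    exact hf'
  · rw [hr, hr]
    exact hg
  · have h22 : rho O ((G₂ + HahnSeries.C (⟨ϖ, hϖO⟩ : O) * H₂) * G₂) ≠ 0 := by
      rw [map_mul, hr]
      exact mul_ne_zero h2 h2
    refine ⟨rho O (H₁ * G₂ - G₁ * H₂) / rho O ((G₂ + HahnSeries.C (⟨ϖ, hϖO⟩ : O) * H₂) * G₂),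
      H₁ * G₂ - G₁ * H₂, (G₂ + HahnSeries.C (⟨ϖ, hϖO⟩ : O) * H₂) * G₂, h22, ?_,
      div_mul_cancel₀ _ h22⟩
    rw [map_mul, hi, ← hH₂, map_sub, map_mul, map_mul, div_mul_eq_mul_div,
      div_eq_iff hC]
    rw [hH₁] at hf'
    linear_combination (iota O G₂) * hf' - (coeffMap t (iota O G₂)) * hf - (iota O G₁) * hH₂

end SigmaAbs

variable {M p : ℕ} {A : ValuationSubring Kbar} {K₀ : IntermediateField ℚ Kbar} {ϖ₀ : K₀}

section Sigma

/-- the restriction of `s` to `K₀`. -/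
def sigmaRes (s : E.GQ) (hs : ∀ x ∈ K₀, s x ∈ K₀) : K₀ →ₐ[ℚ] K₀ where
  toFun x := ⟨s x, hs x x.2⟩
  map_one' := Subtype.ext (map_one s)
  map_mul' x y := Subtype.ext (map_mul s (x : Kbar) (y : Kbar))
  map_zero' := Subtype.ext (map_zero s)
  map_add' x y := Subtype.ext (map_add s (x : Kbar) (y : Kbar))
  commutes' r := Subtype.ext (s.commutes r)

theorem coe_sigmaRes (s : E.GQ) (hs : ∀ x ∈ K₀, s x ∈ K₀) (x : K₀) :
    ((sigmaRes s hs x : K₀) : Kbar) = s x := rfl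

theorem exists_sigma (s : E.GQ) (hs : ∀ x ∈ K₀, s x ∈ K₀) :
    ∃ σ : FK K₀ M ≃+* FK K₀ M, ∀ u : FK K₀ M, tb M K₀ (σ u) = galF M s (tb M K₀ u) := by
  haveI : Algebra.IsAlgebraic ℚ Kbar := AlgebraicClosure.isAlgebraic ℚ
  haveI : Algebra.IsAlgebraic ℚ K₀ := Algebra.IsAlgebraic.of_injective K₀.val K₀.val.injective
  have hb : Function.Bijective (sigmaRes s hs) := Algebra.IsAlgebraic.algHom_bijective _
  refine ⟨arithmeticRingAut (modularFunctionFieldFull M) (AlgEquiv.ofBijective _ hb), fun u => ?_⟩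
  apply Subtype.ext
  ext n
  rfl

variable (s : E.GQ) (σ : FK K₀ M ≃+* FK K₀ M)
  (hσ : ∀ u : FK K₀ M, tb M K₀ (σ u) = galF M s (tb M K₀ u))

include hσ in
/-- `σ` acts on the coefficients through `s`. -/
theorem sigma_coeff (u : FK K₀ M) (n : ℤ) :
    ((((σ u : FK K₀ M) : LaurentSeries K₀).coeff n : K₀) : Kbar) =
      s (((u : LaurentSeries K₀).coeff n : K₀) : Kbar) :=
  congrArg (fun x : FN M => (x : LaurentSeries Kbar).coeff n) (hσ u)

include hσ in
/-- `s` stabilises `K₀`. -/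
theorem sigma_stable : ∀ x ∈ K₀, s x ∈ K₀ := by
  intro x hx
  have h := sigma_coeff s σ hσ (algebraMap K₀ (FK K₀ M) ⟨x, hx⟩) 0
  have h1 : ((algebraMap K₀ (FK K₀ M) ⟨x, hx⟩ : FK K₀ M) : LaurentSeries K₀).coeff 0 = ⟨x, hx⟩ := by
    change (algebraMap K₀ (LaurentSeries K₀) ⟨x, hx⟩).coeff 0 = _
    rw [algebraMap_laurentSeries_eq_single, HahnSeries.coeff_single_same]
  rw [h1] at h
  rw [← h]
  exact Subtype.mem _

include hσ in
theorem sigma_eq_coeffMap (u : FK K₀ M) :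
    ((σ u : FK K₀ M) : LaurentSeries K₀) =
      coeffMap (sigmaRes s (sigma_stable s σ hσ) : K₀ →+* K₀) (u : LaurentSeries K₀) := by
  ext n
  exact sigma_coeff s σ hσ u n

include hσ in
theorem sigma_algebraMap (c : K₀) (hc : s c ∈ K₀) :
    σ (algebraMap K₀ (FK K₀ M) c) = algebraMap K₀ (FK K₀ M) ⟨s c, hc⟩ := by
  apply Descent.baseChangeMap_injective (F₀ := modularFunctionFieldFull M) (algebraMap K₀ Kbar)
  change tb M K₀ _ = tb M K₀ _
  rw [hσ, Descent.toBar_algebraMap, Descent.toBar_algebraMap]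
  exact galF_algebraMap M s _

include hσ in
theorem sigma_xK (BD : BaseData M p) : σ (BD.xK K₀) = BD.xK K₀ := by
  apply Descent.baseChangeMap_injective (F₀ := modularFunctionFieldFull M) (algebraMap K₀ Kbar)
  change tb M K₀ _ = tb M K₀ _
  rw [hσ, tb_xK]
  exact Subtype.ext (coeffMap_coeffEmb s _)

/-- inertia is trivial modulo the uniformiser of `A ∩ K₀`. -/
theorem sigma_sub_div_mem_rA (hsK : ∀ x ∈ K₀, s x ∈ K₀) (hs : s ∈ A.inertiaSubgroupIn ℚ)
    (h₀ : IsUnif (rA A K₀) ϖ₀) :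
    ∀ a ∈ rA A K₀, ((sigmaRes s hsK : K₀ →+* K₀) a - a) / ϖ₀ ∈ rA A K₀ := by
  intro a ha
  have h1 : s (a : Kbar) - (a : Kbar) ∈ A.nonunits :=
    Lib.InertiaField.apply_sub_mem_nonunits A hs ha
  rcases eq_or_ne ((sigmaRes s hsK : K₀ →+* K₀) a - a) 0 with h0 | h0
  · rw [h0, zero_div]
    exact zero_mem _
  refine h₀.div_mem (A.nonunits_subset h1) fun hinv => ?_
  have hinv' : (s (a : Kbar) - (a : Kbar))⁻¹ ∈ A := hinv
  have h0' : s (a : Kbar) - (a : Kbar) ≠ 0 := fun h => h0 (Subtype.ext h)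
  rw [ValuationSubring.mem_nonunits_iff_exists_mem_maximalIdeal] at h1
  obtain ⟨hx, hm⟩ := h1
  rw [IsLocalRing.mem_maximalIdeal, mem_nonunits_iff] at hm
  exact hm (IsUnit.of_mul_eq_one ⟨_, hinv'⟩ (Subtype.ext (mul_inv_cancel₀ h0')))

include hσ in
theorem sigma_mem_Ow (hs : s ∈ A.inertiaSubgroupIn ℚ) (h₀ : IsUnif (rA A K₀) ϖ₀)
    (hg : IsGood (rA A K₀) (FK K₀ M)) : ∀ z ∈ Ow hg, σ z ∈ Ow hg := by
  rintro z ⟨g, hz⟩
  refine ⟨g, ?_⟩
  rw [sigma_eq_coeffMap s σ hσ]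
  exact (sigma_red h₀.ne_zero h₀.mem h₀.inv_notMem
    (sigma_sub_div_mem_rA s (sigma_stable s σ hσ) hs h₀) hz).1

include hσ in
theorem sigma_sub_div_mem (hs : s ∈ A.inertiaSubgroupIn ℚ) (h₀ : IsUnif (rA A K₀) ϖ₀)
    (hg : IsGood (rA A K₀) (FK K₀ M)) :
    ∀ z ∈ Ow hg, (σ z - z) / algebraMap K₀ (FK K₀ M) ϖ₀ ∈ Ow hg := by
  rintro z ⟨g, hz⟩
  obtain ⟨g', hg'⟩ := (sigma_red h₀.ne_zero h₀.mem h₀.inv_notMem
    (sigma_sub_div_mem_rA s (sigma_stable s σ hσ) hs h₀) hz).2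
  refine ⟨g', ?_⟩
  have e : (((σ z - z) / algebraMap K₀ (FK K₀ M) ϖ₀ : FK K₀ M) : LaurentSeries K₀) =
      (((σ z : FK K₀ M) : LaurentSeries K₀) - (z : LaurentSeries K₀)) /
        algebraMap K₀ (LaurentSeries K₀) ϖ₀ := rfl
  rw [e, sigma_eq_coeffMap s σ hσ, algebraMap_laurentSeries_eq_single]
  exact hg'

end Sigma

end Fermat.Agent.S33.Inst.Good

end
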